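import Mathlib
import Fermat.Prelude.Def_GroupCohomology_Selmer
import Fermat.Agent.S56.GW.EC.Ind.FinalP

/-!
# S56, node [GW-EC], cell [EC-FORM]: the formal half of the global Euler characteristic
(prefix `s56ef_`)

Let `G` be a finite group, `χ : G →* (ZMod p)ˣ`, `M' := M^* ⊗ χ` the twisted dual, and `f` an
integer valued function on the finite-dimensional representations of `G` over `ZMod p` which is

* (A) superadditive on short exact sequences and zero on zero modules;
* (B) `f M + f M' ≥ - h⁰(M) - h⁰(M')`;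
* (B⁺) `f (triv) + f (triv') ≥ 0`;
* (C) `f (coind_B^G Res_B M) ≤ 0` for every cyclic subgroup `B` of order prime to `p`.

Then `f = 0` (`s56ef_main`).
-/

set_option autoImplicit false
set_option linter.unusedSectionVars false
set_option linter.style.haveILetI false

namespace Fermat.Agent.S56

open Function Module

/-- The input of the formal theorem. -/
structure s56ef_Input (p : ℕ) [Fact p.Prime] (G : Type) [Group G] (χ : G →* (ZMod p)ˣ) where
  /-- the function -/
  f : ∀ (M : Type) [AddCommGroup M] [Module (ZMod p) M], Representation (ZMod p) G M → ℤ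
  /-- zero on zero modules -/
  zero : ∀ (M : Type) [AddCommGroup M] [Module (ZMod p) M] [Subsingleton M]
    (ρ : Representation (ZMod p) G M), f M ρ = 0
  /-- (A) superadditivity on short exact sequences of finite modules -/
  super : ∀ (M₁ M₂ M₃ : Type) [AddCommGroup M₁] [Module (ZMod p) M₁] [AddCommGroup M₂]
    [Module (ZMod p) M₂] [AddCommGroup M₃] [Module (ZMod p) M₃] [Module.Finite (ZMod p) M₁]
    [Module.Finite (ZMod p) M₂] [Module.Finite (ZMod p) M₃]
    (ρ₁ : Representation (ZMod p) G M₁) (ρ₂ : Representation (ZMod p) G M₂)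
    (ρ₃ : Representation (ZMod p) G M₃) (i : M₁ →ₗ[ZMod p] M₂) (q : M₂ →ₗ[ZMod p] M₃),
    Injective i → Surjective q → LinearMap.range i = LinearMap.ker q →
    (∀ g m, i (ρ₁ g m) = ρ₂ g (i m)) → (∀ g m, q (ρ₂ g m) = ρ₃ g (q m)) →
    f M₁ ρ₁ + f M₃ ρ₃ ≤ f M₂ ρ₂
  /-- (B) the cheap half of the symmetric identity -/
  dual_bound : ∀ (M : Type) [AddCommGroup M] [Module (ZMod p) M] [Module.Finite (ZMod p) M]
    (ρ : Representation (ZMod p) G M),
    -((finrank (ZMod p) ρ.invariants : ℤ) + (finrank (ZMod p) (ρ.dual.twist χ).invariants : ℤ))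
      ≤ f M ρ + f (Module.Dual (ZMod p) M) (ρ.dual.twist χ)
  /-- (B⁺) the pair `{F_p, μ_p}` -/
  triv_bound : 0 ≤ f (ZMod p) (Representation.trivial (ZMod p) G (ZMod p))
    + f (Module.Dual (ZMod p) (ZMod p))
        ((Representation.trivial (ZMod p) G (ZMod p)).dual.twist χ)
  /-- (C) the base class -/
  base : ∀ (B : Subgroup G), IsCyclic B → (Nat.card B).Coprime p → ∀ (M : Type) [AddCommGroup M]
    [Module (ZMod p) M] [Module.Finite (ZMod p) M] (ρ : Representation (ZMod p) G M),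
    f _ (Representation.coind B.subtype (s56ei_res ρ B)) ≤ 0

section basic

variable {p : ℕ} [Fact p.Prime] {G : Type} [Group G] {χ : G →* (ZMod p)ˣ}

/-- The twisted dual. -/
abbrev s56ef_tw (χ : G →* (ZMod p)ˣ) {M : Type} [AddCommGroup M] [Module (ZMod p) M]
    (ρ : Representation (ZMod p) G M) : Representation (ZMod p) G (Module.Dual (ZMod p) M) :=
  ρ.dual.twist χ

lemma s56ef_tw_apply {M : Type} [AddCommGroup M] [Module (ZMod p) M]
    (ρ : Representation (ZMod p) G M) (g : G) (l : Module.Dual (ZMod p) M) (m : M) :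
    s56ef_tw χ ρ g l m = (χ g : ZMod p) * l (ρ g⁻¹ m) := by
  simp only [s56ef_tw, Representation.twist_apply_apply, Representation.dual_apply,
    LinearMap.smul_apply, smul_eq_mul]
  rfl

variable (I : s56ef_Input p G χ)

/-- Invariance under equivariant isomorphisms. -/
lemma s56ef_iso {M M' : Type} [AddCommGroup M] [Module (ZMod p) M] [AddCommGroup M']
    [Module (ZMod p) M'] [Module.Finite (ZMod p) M] (ρ : Representation (ZMod p) G M)
    (ρ' : Representation (ZMod p) G M') (e : M ≃ₗ[ZMod p] M')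
    (he : ∀ g m, e (ρ g m) = ρ' g (e m)) : I.f M ρ = I.f M' ρ' := by
  haveI : Module.Finite (ZMod p) M' := Module.Finite.equiv e
  have key : ∀ {A A' : Type} [AddCommGroup A] [Module (ZMod p) A] [AddCommGroup A']
      [Module (ZMod p) A'] [Module.Finite (ZMod p) A] [Module.Finite (ZMod p) A']
      (σ : Representation (ZMod p) G A) (σ' : Representation (ZMod p) G A')
      (e : A ≃ₗ[ZMod p] A') (_ : ∀ g m, e (σ g m) = σ' g (e m)), I.f A σ ≤ I.f A' σ' := by
    intro A A' _ _ _ _ _ _ σ σ' e he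
    have h := I.super A A' PUnit σ σ' (1 : G →* (PUnit →ₗ[ZMod p] PUnit)) e.toLinearMap 0
      e.injective (fun b => ⟨0, Subsingleton.elim _ _⟩)
      (by
        ext x
        simp only [LinearMap.mem_range, LinearEquiv.coe_coe, LinearMap.mem_ker,
          LinearMap.zero_apply, iff_true]
        exact ⟨e.symm x, by simp⟩)
      he (fun g m => Subsingleton.elim _ _)
    rw [I.zero PUnit, add_zero] at h
    exact h
  refine le_antisymm (key ρ ρ' e he) (key ρ' ρ e.symm ?_)
  intro g m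
  apply e.injective
  rw [he, LinearEquiv.apply_symm_apply, LinearEquiv.apply_symm_apply]

end basic

section dual

variable {p : ℕ} [Fact p.Prime] {G : Type} [Group G] {χ : G →* (ZMod p)ˣ}

/-- The dual of an equivariant map is equivariant for the twisted duals. -/
lemma s56ef_dualMap_equiv {M N : Type} [AddCommGroup M] [Module (ZMod p) M] [AddCommGroup N]
    [Module (ZMod p) N] (ρ : Representation (ZMod p) G M) (σ : Representation (ZMod p) G N)
    (T : M →ₗ[ZMod p] N) (hT : ∀ g m, T (ρ g m) = σ g (T m)) (g : G)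
    (l : Module.Dual (ZMod p) N) :
    T.dualMap (s56ef_tw χ σ g l) = s56ef_tw χ ρ g (T.dualMap l) := by
  ext m
  rw [LinearMap.dualMap_apply, s56ef_tw_apply, s56ef_tw_apply, LinearMap.dualMap_apply, hT]

lemma s56ef_chi_mul_inv (g : G) : ((χ g : (ZMod p)ˣ) : ZMod p) * ((χ g⁻¹ : (ZMod p)ˣ) : ZMod p) = 1 := by
  rw [← Units.val_mul, ← map_mul, mul_inv_cancel, map_one, Units.val_one]

/-- The evaluation map `M → M''` is equivariant. -/
lemma s56ef_eval_equiv {M : Type} [AddCommGroup M] [Module (ZMod p) M]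
    [Module.Finite (ZMod p) M] (ρ : Representation (ZMod p) G M) (g : G) (m : M) :
    Module.evalEquiv (ZMod p) M (ρ g m)
      = s56ef_tw χ (s56ef_tw χ ρ) g (Module.evalEquiv (ZMod p) M m) := by
  ext l
  rw [s56ef_tw_apply, Module.evalEquiv_apply, Module.evalEquiv_apply, Module.Dual.eval_apply,
    Module.Dual.eval_apply, s56ef_tw_apply, inv_inv, ← mul_assoc, s56ef_chi_mul_inv, one_mul]

variable (I : s56ef_Input p G χ)

/-- The symmetric function `s(M) = f(M) + f(M')`. -/
def s56ef_s (M : Type) [AddCommGroup M] [Module (ZMod p) M]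
    (ρ : Representation (ZMod p) G M) : ℤ :=
  I.f M ρ + I.f (Module.Dual (ZMod p) M) (s56ef_tw χ ρ)

/-- `f(M'') = f(M)`. -/
lemma s56ef_f_ddual {M : Type} [AddCommGroup M] [Module (ZMod p) M]
    [Module.Finite (ZMod p) M] (ρ : Representation (ZMod p) G M) :
    I.f _ (s56ef_tw χ (s56ef_tw χ ρ)) = I.f M ρ :=
  (s56ef_iso I ρ _ (Module.evalEquiv (ZMod p) M) (s56ef_eval_equiv ρ)).symm

/-- `s(M') = s(M)`. -/
lemma s56ef_s_dual {M : Type} [AddCommGroup M] [Module (ZMod p) M]
    [Module.Finite (ZMod p) M] (ρ : Representation (ZMod p) G M) :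
    s56ef_s I _ (s56ef_tw χ ρ) = s56ef_s I M ρ := by
  unfold s56ef_s
  rw [s56ef_f_ddual I ρ, add_comm]

/-- The dual short exact sequence. -/
lemma s56ef_f_super_dual (M₁ M₂ M₃ : Type) [AddCommGroup M₁] [Module (ZMod p) M₁]
    [AddCommGroup M₂] [Module (ZMod p) M₂] [AddCommGroup M₃] [Module (ZMod p) M₃]
    [Module.Finite (ZMod p) M₁] [Module.Finite (ZMod p) M₂] [Module.Finite (ZMod p) M₃]
    (ρ₁ : Representation (ZMod p) G M₁) (ρ₂ : Representation (ZMod p) G M₂)
    (ρ₃ : Representation (ZMod p) G M₃) (i : M₁ →ₗ[ZMod p] M₂) (q : M₂ →ₗ[ZMod p] M₃)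
    (hi : Injective i) (hq : Surjective q) (hex : LinearMap.range i = LinearMap.ker q)
    (hie : ∀ g m, i (ρ₁ g m) = ρ₂ g (i m)) (hqe : ∀ g m, q (ρ₂ g m) = ρ₃ g (q m)) :
    I.f _ (s56ef_tw χ ρ₃) + I.f _ (s56ef_tw χ ρ₁) ≤ I.f _ (s56ef_tw χ ρ₂) := by
  refine I.super _ _ _ (s56ef_tw χ ρ₃) (s56ef_tw χ ρ₂) (s56ef_tw χ ρ₁) q.dualMap i.dualMap
    (LinearMap.dualMap_injective_of_surjective hq)
    (LinearMap.dualMap_surjective_of_injective hi) ?_
    (fun g l => s56ef_dualMap_equiv ρ₂ ρ₃ q hqe g l)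
    (fun g l => s56ef_dualMap_equiv ρ₁ ρ₂ i hie g l)
  rw [LinearMap.range_dualMap_eq_dualAnnihilator_ker, LinearMap.ker_dualMap_eq_dualAnnihilator_range,
    hex]

/-- `s` is superadditive. -/
lemma s56ef_s_super (M₁ M₂ M₃ : Type) [AddCommGroup M₁] [Module (ZMod p) M₁]
    [AddCommGroup M₂] [Module (ZMod p) M₂] [AddCommGroup M₃] [Module (ZMod p) M₃]
    [Module.Finite (ZMod p) M₁] [Module.Finite (ZMod p) M₂] [Module.Finite (ZMod p) M₃]
    (ρ₁ : Representation (ZMod p) G M₁) (ρ₂ : Representation (ZMod p) G M₂)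
    (ρ₃ : Representation (ZMod p) G M₃) (i : M₁ →ₗ[ZMod p] M₂) (q : M₂ →ₗ[ZMod p] M₃)
    (hi : Injective i) (hq : Surjective q) (hex : LinearMap.range i = LinearMap.ker q)
    (hie : ∀ g m, i (ρ₁ g m) = ρ₂ g (i m)) (hqe : ∀ g m, q (ρ₂ g m) = ρ₃ g (q m)) :
    s56ef_s I M₁ ρ₁ + s56ef_s I M₃ ρ₃ ≤ s56ef_s I M₂ ρ₂ := by
  have h1 := I.super M₁ M₂ M₃ ρ₁ ρ₂ ρ₃ i q hi hq hex hie hqe
  have h2 := s56ef_f_super_dual I M₁ M₂ M₃ ρ₁ ρ₂ ρ₃ i q hi hq hex hie hqe
  unfold s56ef_s
  linarith

/-- `s` of a stable submodule and the quotient. -/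
lemma s56ef_s_sub_quot {U : Type} [AddCommGroup U] [Module (ZMod p) U]
    [Module.Finite (ZMod p) U] (ρ : Representation (ZMod p) G U) (W : Submodule (ZMod p) U)
    (hW : ∀ g, ∀ w ∈ W, ρ g w ∈ W) :
    s56ef_s I W (s56ei_sub ρ W hW) + s56ef_s I (U ⧸ W) (s56ei_quot ρ W hW) ≤ s56ef_s I U ρ := by
  refine s56ef_s_super I _ _ _ _ _ _ W.subtype W.mkQ (Submodule.subtype_injective _)
    (Submodule.mkQ_surjective _) ?_ (fun g m => rfl) (fun g m => rfl)
  rw [Submodule.range_subtype, Submodule.ker_mkQ]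

/-- invariance of `s` under equivariant isomorphisms -/
lemma s56ef_s_iso {M M' : Type} [AddCommGroup M] [Module (ZMod p) M] [AddCommGroup M']
    [Module (ZMod p) M'] [Module.Finite (ZMod p) M] (ρ : Representation (ZMod p) G M)
    (ρ' : Representation (ZMod p) G M') (e : M ≃ₗ[ZMod p] M')
    (he : ∀ g m, e (ρ g m) = ρ' g (e m)) : s56ef_s I M ρ = s56ef_s I M' ρ' := by
  haveI : Module.Finite (ZMod p) M' := Module.Finite.equiv e
  unfold s56ef_s
  rw [s56ef_iso I ρ ρ' e he]
  congr 1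
  refine (s56ef_iso I (s56ef_tw χ ρ') (s56ef_tw χ ρ) e.dualMap ?_).symm
  intro g l
  exact s56ef_dualMap_equiv ρ ρ' e.toLinearMap he g l

end dual

section nonneg

variable {p : ℕ} [Fact p.Prime] {G : Type} [Group G] {χ : G →* (ZMod p)ˣ}
variable (I : s56ef_Input p G χ)

/-- `s(triv) ≥ 0`. -/
lemma s56ef_s_triv : 0 ≤ s56ef_s I (ZMod p) (Representation.trivial (ZMod p) G (ZMod p)) :=
  I.triv_bound

/-- The simple case of `s ≥ 0`. -/
lemma s56ef_s_nonneg_simple {M : Type} [AddCommGroup M] [Module (ZMod p) M]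
    [Module.Finite (ZMod p) M] [Nontrivial M] (ρ : Representation (ZMod p) G M)
    (hsimple : ∀ W : Submodule (ZMod p) M, (∀ g, ∀ w ∈ W, ρ g w ∈ W) → W = ⊥ ∨ W = ⊤) :
    0 ≤ s56ef_s I M ρ := by
  by_cases h1 : ρ.invariants = ⊥
  · by_cases h2 : (s56ef_tw χ ρ).invariants = ⊥
    · have h := I.dual_bound M ρ
      have e2 : (ρ.dual.twist χ).invariants = ⊥ := h2
      rw [h1, e2, finrank_bot, finrank_bot] at h
      simpa [s56ef_s] using h
    · -- an invariant functional twisted by `χ`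
      obtain ⟨l, hl, hl0⟩ := Submodule.exists_mem_ne_zero_of_ne_bot h2
      rw [Representation.mem_invariants] at hl
      have hlρ : ∀ g m, l (ρ g m) = (χ g : ZMod p) * l m := by
        intro g m
        have h := congrArg (fun t : Module.Dual (ZMod p) M => t (ρ g m)) (hl g)
        simp only [s56ef_tw_apply] at h
        rw [← Module.End.mul_apply, ← map_mul, inv_mul_cancel, map_one,
          Module.End.one_apply] at h
        exact h.symm
      have hker : LinearMap.ker l = ⊥ := by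
        rcases hsimple (LinearMap.ker l) (fun g w hw => by
          rw [LinearMap.mem_ker] at hw ⊢
          rw [hlρ, hw, mul_zero]) with h | h
        · exact h
        · exact absurd (LinearMap.ker_eq_top.1 h) hl0
      have hinj : Injective l := LinearMap.ker_eq_bot.1 hker
      have hsurj : Surjective l := by
        obtain ⟨m0, hm0⟩ : ∃ m0, l m0 ≠ 0 := by
          by_contra hcon
          push Not at hcon
          exact hl0 (LinearMap.ext hcon)
        intro c
        refine ⟨(c * (l m0)⁻¹) • m0, ?_⟩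
        rw [map_smul, smul_eq_mul, mul_assoc, inv_mul_cancel₀ hm0, mul_one]
      let e0 : M ≃ₗ[ZMod p] ZMod p := LinearEquiv.ofBijective l ⟨hinj, hsurj⟩
      let e : M ≃ₗ[ZMod p] Module.Dual (ZMod p) (ZMod p) :=
        e0.trans (LinearMap.ringLmapEquivSelf (ZMod p) (ZMod p) (ZMod p)).symm
      have he : ∀ g m, e (ρ g m)
          = s56ef_tw χ (Representation.trivial (ZMod p) G (ZMod p)) g (e m) := by
        intro g m
        ext
        rw [s56ef_tw_apply]
        show (1 : ZMod p) • l (ρ g m) = (χ g : ZMod p) * ((1 : ZMod p) • l m)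
        rw [hlρ, one_smul, one_smul]
      rw [s56ef_s_iso I ρ _ e he, s56ef_s_dual I]
      exact s56ef_s_triv I
  · -- trivial action
    have htop : ρ.invariants = ⊤ := by
      rcases hsimple ρ.invariants (fun g w hw => by
        rw [Representation.mem_invariants] at hw
        rw [hw g]
        exact (Representation.mem_invariants ρ w).2 hw) with h | h
      · exact absurd h h1
      · exact h
    have hfix : ∀ g m, ρ g m = m := fun g m =>
      (Representation.mem_invariants ρ m).1 (htop ▸ Submodule.mem_top) g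
    obtain ⟨m0, hm0⟩ := exists_ne (0 : M)
    have hspan : Submodule.span (ZMod p) {m0} = ⊤ := by
      rcases hsimple (Submodule.span (ZMod p) {m0}) (fun g w hw => by rw [hfix]; exact hw)
        with h | h
      · exact absurd (Submodule.span_singleton_eq_bot.1 h) hm0
      · exact h
    let e : ZMod p ≃ₗ[ZMod p] M :=
      (LinearEquiv.toSpanNonzeroSingleton (ZMod p) M m0 hm0).trans
        ((LinearEquiv.ofEq _ _ hspan).trans (LinearEquiv.ofTop ⊤ rfl))
    have he : ∀ g c, e (Representation.trivial (ZMod p) G (ZMod p) g c) = ρ g (e c) := by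
      intro g c
      rw [hfix]
      rfl
    rw [← s56ef_s_iso I _ ρ e he]
    exact s56ef_s_triv I

/-- **`s ≥ 0` everywhere.** -/
lemma s56ef_s_nonneg_aux : ∀ (n : ℕ) (M : Type) [AddCommGroup M] [Module (ZMod p) M]
    [Module.Finite (ZMod p) M] (ρ : Representation (ZMod p) G M),
    finrank (ZMod p) M = n → 0 ≤ s56ef_s I M ρ := by
  intro n
  induction n using Nat.strong_induction_on with
  | _ n ih =>
    intro M _ _ _ ρ hn
    by_cases hsub : Subsingleton M
    · unfold s56ef_s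
      rw [I.zero M ρ, I.zero _ _, add_zero]
    · rw [not_subsingleton_iff_nontrivial] at hsub
      by_cases hs : ∃ W : Submodule (ZMod p) M, (∀ g, ∀ w ∈ W, ρ g w ∈ W) ∧ W ≠ ⊥ ∧ W ≠ ⊤
      · obtain ⟨W, hW, hbot, htop⟩ := hs
        have h := s56ef_s_sub_quot I ρ W hW
        have hWlt : finrank (ZMod p) W < n := hn ▸ Submodule.finrank_lt htop
        have hWpos : 0 < finrank (ZMod p) W := by
          rw [Nat.pos_iff_ne_zero]
          intro h0
          exact hbot (Submodule.finrank_eq_zero.1 h0)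
        have hQ : finrank (ZMod p) (M ⧸ W) < n := by
          have := Submodule.finrank_quotient_add_finrank W
          omega
        have h1 := ih _ hWlt W (s56ei_sub ρ W hW) rfl
        have h2 := ih _ hQ (M ⧸ W) (s56ei_quot ρ W hW) rfl
        linarith
      · push Not at hs
        refine s56ef_s_nonneg_simple I ρ (fun W hW => ?_)
        by_cases hb : W = ⊥
        · exact Or.inl hb
        · exact Or.inr (hs W hW hb)

lemma s56ef_s_nonneg (M : Type) [AddCommGroup M] [Module (ZMod p) M]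
    [Module.Finite (ZMod p) M] (ρ : Representation (ZMod p) G M) : 0 ≤ s56ef_s I M ρ :=
  s56ef_s_nonneg_aux I _ M ρ rfl

end nonneg

section coind

variable {p : ℕ} [Fact p.Prime] {G : Type} [Group G] {χ : G →* (ZMod p)ˣ}

/-- Equivariance of `(G ⧸ B → M) ≃ coind_B^G Res_B M`. -/
lemma s56ef_frob_equiv {M : Type} [AddCommGroup M] [Module (ZMod p) M]
    (ρ : Representation (ZMod p) G M) (B : Subgroup G) (g : G) (v : G ⧸ B → M) :
    s56ei_frobMap ρ B (s56ei_permM (G ⧸ B) ρ g v)
      = Representation.coind B.subtype (s56ei_res ρ B) g (s56ei_frobMap ρ B v) := by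
  apply Subtype.ext
  funext h
  simp only [s56ei_frobMap_apply, s56ei_permM_apply, Representation.coind_apply]
  show _ = (s56ei_frobMap ρ B v).1 (h * g)
  rw [s56ei_frobMap_apply, map_mul, Module.End.mul_apply]
  congr 2
  rw [mul_inv_rev]
  rfl

/-- The linear equivalence `(G ⧸ B → M) ≃ coind_B^G Res_B M`. -/
noncomputable def s56ef_frobEquiv {M : Type} [AddCommGroup M] [Module (ZMod p) M]
    (ρ : Representation (ZMod p) G M) (B : Subgroup G) :
    (G ⧸ B → M) ≃ₗ[ZMod p] Representation.coindV B.subtype (s56ei_res ρ B) :=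
  LinearEquiv.ofBijective _ (s56ei_frobMap_bijective ρ B)

/-- The pairing `(X → M^*) ≃ (X → M)^*`. -/
noncomputable def s56ef_piDual (X : Type) [Fintype X] [DecidableEq X] (M : Type) [AddCommGroup M]
    [Module (ZMod p) M] :
    (X → Module.Dual (ZMod p) M) ≃ₗ[ZMod p] Module.Dual (ZMod p) (X → M) :=
  LinearMap.lsum (ZMod p) (fun _ : X => M) (ZMod p)

lemma s56ef_piDual_apply (X : Type) [Fintype X] [DecidableEq X] (M : Type) [AddCommGroup M]
    [Module (ZMod p) M] (ψ : X → Module.Dual (ZMod p) M) (φ : X → M) :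
    s56ef_piDual X M ψ φ = ∑ x, ψ x (φ x) := by
  simp [s56ef_piDual, LinearMap.lsum_apply, LinearMap.sum_apply]

/-- Equivariance of the pairing. -/
lemma s56ef_piDual_equiv (X : Type) [Fintype X] [DecidableEq X] [MulAction G X] {M : Type}
    [AddCommGroup M] [Module (ZMod p) M] (ρ : Representation (ZMod p) G M) (g : G)
    (ψ : X → Module.Dual (ZMod p) M) :
    s56ef_piDual X M (s56ei_permM X (s56ef_tw χ ρ) g ψ)
      = s56ef_tw χ (s56ei_permM X ρ) g (s56ef_piDual X M ψ) := by
  refine LinearMap.ext (fun φ => ?_)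
  rw [s56ef_tw_apply, s56ef_piDual_apply, s56ef_piDual_apply, Finset.mul_sum]
  rw [← Equiv.sum_comp (MulAction.toPerm g : X ≃ X)]
  refine Finset.sum_congr rfl (fun x _ => ?_)
  simp only [s56ei_permM_apply, s56ef_tw_apply, MulAction.toPerm_apply, inv_smul_smul, inv_inv]

end coind

section main

variable {p : ℕ} [Fact p.Prime] {G : Type} [Group G] [Finite G] {χ : G →* (ZMod p)ˣ}
variable (I : s56ef_Input p G χ)

/-- (C) in the permutation model. -/
lemma s56ef_f_perm_le (B : Subgroup G) (hB : IsCyclic B) (hc : (Nat.card B).Coprime p)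
    (M : Type) [AddCommGroup M] [Module (ZMod p) M] [Module.Finite (ZMod p) M]
    (ρ : Representation (ZMod p) G M) :
    I.f (G ⧸ B → M) (s56ei_permM (G ⧸ B) ρ) ≤ 0 := by
  rw [s56ef_iso I _ _ (s56ef_frobEquiv ρ B) (s56ef_frob_equiv ρ B)]
  exact I.base B hB hc M ρ

/-- (C) for the twisted dual of the base class. -/
lemma s56ef_f_perm_dual_le (B : Subgroup G) (hB : IsCyclic B) (hc : (Nat.card B).Coprime p)
    (M : Type) [AddCommGroup M] [Module (ZMod p) M] [Module.Finite (ZMod p) M]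
    (ρ : Representation (ZMod p) G M) :
    I.f _ (s56ef_tw χ (s56ei_permM (G ⧸ B) ρ)) ≤ 0 := by
  classical
  haveI := Fintype.ofFinite (G ⧸ B)
  rw [← s56ef_iso I (s56ei_permM (G ⧸ B) (s56ef_tw χ ρ)) _ (s56ef_piDual (G ⧸ B) M)
    (s56ef_piDual_equiv (G ⧸ B) ρ)]
  exact s56ef_f_perm_le I B hB hc _ (s56ef_tw χ ρ)

/-- `s ≤ 0` on the base class. -/
lemma s56ef_s_perm_le (B : Subgroup G) (hB : IsCyclic B) (hc : (Nat.card B).Coprime p)
    (M : Type) [AddCommGroup M] [Module (ZMod p) M] [Module.Finite (ZMod p) M]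
    (ρ : Representation (ZMod p) G M) :
    s56ef_s I (G ⧸ B → M) (s56ei_permM (G ⧸ B) ρ) ≤ 0 := by
  have h1 := s56ef_f_perm_le I B hB hc M ρ
  have h2 := s56ef_f_perm_dual_le I B hB hc M ρ
  unfold s56ef_s
  linarith

/-- **`s = 0` everywhere.** -/
lemma s56ef_s_eq_zero (M : Type) [AddCommGroup M] [Module (ZMod p) M]
    [Module.Finite (ZMod p) M] (ρ : Representation (ZMod p) G M) : s56ef_s I M ρ = 0 := by
  classical
  refine le_antisymm ?_ (s56ef_s_nonneg I M ρ)
  let B : Subgroup G := ⊥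
  haveI := Fintype.ofFinite (G ⧸ B)
  let T : (G ⧸ B → M) →ₗ[ZMod p] M := ∑ x : G ⧸ B, LinearMap.proj x
  have hTapp : ∀ v : G ⧸ B → M, T v = ∑ x, v x := by
    intro v
    simp [T, LinearMap.sum_apply]
  have hT : ∀ g v, T (s56ei_permM (G ⧸ B) ρ g v) = ρ g (T v) := by
    intro g v
    rw [hTapp, hTapp, map_sum]
    rw [← Equiv.sum_comp (MulAction.toPerm g : (G ⧸ B) ≃ (G ⧸ B))]
    refine Finset.sum_congr rfl (fun x _ => ?_)
    simp only [s56ei_permM_apply, MulAction.toPerm_apply, inv_smul_smul]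
  have hsurj : Surjective T := by
    intro m
    refine ⟨Pi.single ((1 : G) : G ⧸ B) m, ?_⟩
    rw [hTapp, Finset.sum_pi_single']
    simp
  have hK : ∀ g, ∀ w ∈ LinearMap.ker T, s56ei_permM (G ⧸ B) ρ g w ∈ LinearMap.ker T := by
    intro g w hw
    rw [LinearMap.mem_ker] at hw ⊢
    rw [hT, hw, map_zero]
  have h1 := s56ef_s_super I (LinearMap.ker T) (G ⧸ B → M) M
    (s56ei_sub (s56ei_permM (G ⧸ B) ρ) (LinearMap.ker T) hK) (s56ei_permM (G ⧸ B) ρ) ρ
    (LinearMap.ker T).subtype T (Submodule.subtype_injective _) hsurj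
    (by rw [Submodule.range_subtype]) (fun g m => rfl) hT
  have h2 := s56ef_s_nonneg I (LinearMap.ker T)
    (s56ei_sub (s56ei_permM (G ⧸ B) ρ) (LinearMap.ker T) hK)
  have h3 := s56ef_s_perm_le I B (by infer_instance) (by simp [B]) M ρ
  linarith

/-- **`f` is additive.** -/
lemma s56ef_f_add (M₁ M₂ M₃ : Type) [AddCommGroup M₁] [Module (ZMod p) M₁]
    [AddCommGroup M₂] [Module (ZMod p) M₂] [AddCommGroup M₃] [Module (ZMod p) M₃]
    [Module.Finite (ZMod p) M₁] [Module.Finite (ZMod p) M₂] [Module.Finite (ZMod p) M₃]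
    (ρ₁ : Representation (ZMod p) G M₁) (ρ₂ : Representation (ZMod p) G M₂)
    (ρ₃ : Representation (ZMod p) G M₃) (i : M₁ →ₗ[ZMod p] M₂) (q : M₂ →ₗ[ZMod p] M₃)
    (hi : Injective i) (hq : Surjective q) (hex : LinearMap.range i = LinearMap.ker q)
    (hie : ∀ g m, i (ρ₁ g m) = ρ₂ g (i m)) (hqe : ∀ g m, q (ρ₂ g m) = ρ₃ g (q m)) :
    I.f M₂ ρ₂ = I.f M₁ ρ₁ + I.f M₃ ρ₃ := by
  have h1 := I.super M₁ M₂ M₃ ρ₁ ρ₂ ρ₃ i q hi hq hex hie hqe
  have h2 := s56ef_f_super_dual I M₁ M₂ M₃ ρ₁ ρ₂ ρ₃ i q hi hq hex hie hqe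
  have e1 := s56ef_s_eq_zero I M₁ ρ₁
  have e2 := s56ef_s_eq_zero I M₂ ρ₂
  have e3 := s56ef_s_eq_zero I M₃ ρ₃
  unfold s56ef_s at e1 e2 e3
  linarith

/-- The additive function attached to the input. -/
def s56ef_addFn : s56ei_AddFn (ZMod p) G where
  f := I.f
  add := s56ef_f_add I

/-- **[EC-FORM]**: under (A), (B), (B⁺), (C) the function `f` vanishes identically. -/
theorem s56ef_main (M : Type) [AddCommGroup M] [Module (ZMod p) M] [Module.Finite (ZMod p) M]
    (ρ : Representation (ZMod p) G M) : I.f M ρ = 0 := by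
  refine s56ei_main' p (s56ef_addFn I) ?_ M ρ
  intro B hB hc N _ _ _ σ
  show I.f _ (Representation.coind B.subtype (s56ei_res σ B)) = 0
  have h1 := s56ef_f_perm_le I B hB hc N σ
  have h2 := s56ef_f_perm_dual_le I B hB hc N σ
  have h3 := s56ef_s_eq_zero I (G ⧸ B → N) (s56ei_permM (G ⧸ B) σ)
  unfold s56ef_s at h3
  rw [← s56ef_iso I _ _ (s56ef_frobEquiv σ B) (s56ef_frob_equiv σ B)]
  linarith

end main

end Fermat.Agent.S56
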