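import Mathlib
import Fermat.Agent.S56.GW.Seams
import Fermat.Agent.S56.GW.EC.Form

/-!
# S56, node [GW-EC]: the concrete global function `f` (prefix `s56eg_`)

For a finite quotient `π : G_ℚ →* Δ` (think `Δ = Gal(K/ℚ)`, `K ∋ μ_p` unramified outside `S`)
and a finite `F_p[Δ]`-module `(M, ρ)`, inflated to `G_ℚ` through `π`:

`s56eg_f S π M ρ = h¹(G_S, M) - h⁰(G_ℚ, M) - h²(G_S, M) - dim M + h⁰(G_∞, M)`  (an integer).

The global Euler characteristic `s56gw_GEC_stmt` says `f ≤ 0`; the formal theorem `s56ef_main`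
gives `f = 0` from the four inputs `s56eg_A_stmt` ([EC-GA]), `s56eg_B_stmt`, `s56eg_Bplus_stmt`
([EC-GB]) and `s56eg_C_stmt` ([EC-BASE]).
-/

set_option autoImplicit false

open CategoryTheory Module groupCohomology ExtCitation

namespace Fermat.Agent.S56

local notation "GQ" => (AlgebraicClosure ℚ ≃ₐ[ℚ] AlgebraicClosure ℚ)

section defs

variable {p : ℕ} [Fact p.Prime] {Δ : Type} [Group Δ]

/-- The inflation to `G_ℚ` of a representation of the quotient `Δ`. -/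
noncomputable abbrev s56eg_infl (π : GQ →* Δ) {M : Type} [AddCommGroup M] [Module (ZMod p) M]
    (ρ : Representation (ZMod p) Δ M) : Rep.{0} (ZMod p) GQ :=
  Rep.of (ρ.comp π)

/-- The concrete function `f = h¹_S - h⁰ - h²_S - dim + h⁰_∞`. -/
noncomputable def s56eg_f (S : Finset Nat.Primes) (π : GQ →* Δ) (M : Type) [AddCommGroup M]
    [Module (ZMod p) M] (ρ : Representation (ZMod p) Δ M) : ℤ :=
  (finrank (ZMod p) (continuousH1S S (s56eg_infl π ρ)) : ℤ)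
    - (finrank (ZMod p) (s56eg_infl π ρ).ρ.invariants : ℤ)
    - (finrank (ZMod p) (continuousH2S S (s56eg_infl π ρ)) : ℤ)
    - (finrank (ZMod p) M : ℤ)
    + (finrank (ZMod p) (s56gw_resInf (s56eg_infl π ρ)).ρ.invariants : ℤ)

/-- `π : G_ℚ →* Δ` is a finite Galois level unramified outside `S` on which the mod `p`
cyclotomic character is `χ`. -/
structure s56eg_IsLev (p : ℕ) [Fact p.Prime] (S : Finset Nat.Primes) (π : GQ →* Δ)
    (χ : Δ →* (ZMod p)ˣ) : Prop where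
  /-- `π` is onto -/
  surj : Function.Surjective π
  /-- `π` is trivial on an open subgroup -/
  smooth : ∃ F : IntermediateField ℚ (AlgebraicClosure ℚ), FiniteDimensional ℚ F ∧
    ∀ s ∈ F.fixingSubgroup, π s = 1
  /-- `π` is unramified outside `S` -/
  unr : ∀ q : Nat.Primes, q ∉ S → ∀ A : ValuationSubring (AlgebraicClosure ℚ),
    A.LiesOverPrime (q : ℕ) → ∀ g ∈ A.inertiaSubgroupIn ℚ, π g = 1
  /-- the cyclotomic character factors through `π` as `χ` -/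
  cyc : ∀ g : GQ, χ (π g) = cycloChar p g

end defs

/-- **Input (A)** ([EC-GA]): finiteness, `f = 0` on zero modules, superadditivity. -/
def s56eg_A_stmt : Prop :=
  ∀ (p : ℕ) [Fact p.Prime], p ≠ 2 → ∀ (S : Finset Nat.Primes), pPrime p ∈ S →
  ∀ (Δ : Type) [Group Δ] [Finite Δ] (π : GQ →* Δ) (χ : Δ →* (ZMod p)ˣ), s56eg_IsLev p S π χ →
    (∀ (M : Type) [AddCommGroup M] [Module (ZMod p) M] [Subsingleton M]
      (ρ : Representation (ZMod p) Δ M), s56eg_f S π M ρ = 0) ∧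
    (∀ (M₁ M₂ M₃ : Type) [AddCommGroup M₁] [Module (ZMod p) M₁] [AddCommGroup M₂]
      [Module (ZMod p) M₂] [AddCommGroup M₃] [Module (ZMod p) M₃] [Module.Finite (ZMod p) M₁]
      [Module.Finite (ZMod p) M₂] [Module.Finite (ZMod p) M₃]
      (ρ₁ : Representation (ZMod p) Δ M₁) (ρ₂ : Representation (ZMod p) Δ M₂)
      (ρ₃ : Representation (ZMod p) Δ M₃) (i : M₁ →ₗ[ZMod p] M₂) (q : M₂ →ₗ[ZMod p] M₃),
      Function.Injective i → Function.Surjective q → LinearMap.range i = LinearMap.ker q →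
      (∀ g m, i (ρ₁ g m) = ρ₂ g (i m)) → (∀ g m, q (ρ₂ g m) = ρ₃ g (q m)) →
      s56eg_f S π M₁ ρ₁ + s56eg_f S π M₃ ρ₃ ≤ s56eg_f S π M₂ ρ₂)

/-- **Input (B)** ([EC-GB]): `f(M) + f(M') ≥ - h⁰(M) - h⁰(M')`. -/
def s56eg_B_stmt : Prop :=
  ∀ (p : ℕ) [Fact p.Prime], p ≠ 2 → ∀ (S : Finset Nat.Primes), pPrime p ∈ S →
  ∀ (Δ : Type) [Group Δ] [Finite Δ] (π : GQ →* Δ) (χ : Δ →* (ZMod p)ˣ), s56eg_IsLev p S π χ →
  ∀ (M : Type) [AddCommGroup M] [Module (ZMod p) M] [Module.Finite (ZMod p) M]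
    (ρ : Representation (ZMod p) Δ M),
    -((finrank (ZMod p) ρ.invariants : ℤ) + (finrank (ZMod p) (ρ.dual.twist χ).invariants : ℤ))
      ≤ s56eg_f S π M ρ + s56eg_f S π (Module.Dual (ZMod p) M) (ρ.dual.twist χ)

/-- **Input (B⁺)** ([EC-GB]): `f(F_p) + f(μ_p) ≥ 0`. -/
def s56eg_Bplus_stmt : Prop :=
  ∀ (p : ℕ) [Fact p.Prime], p ≠ 2 → ∀ (S : Finset Nat.Primes), pPrime p ∈ S →
  ∀ (Δ : Type) [Group Δ] [Finite Δ] (π : GQ →* Δ) (χ : Δ →* (ZMod p)ˣ), s56eg_IsLev p S π χ →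
    0 ≤ s56eg_f S π (ZMod p) (Representation.trivial (ZMod p) Δ (ZMod p))
      + s56eg_f S π (Module.Dual (ZMod p) (ZMod p))
          ((Representation.trivial (ZMod p) Δ (ZMod p)).dual.twist χ)

/-- **Input (C)** ([EC-BASE]): `f ≤ 0` on the base class. -/
def s56eg_C_stmt : Prop :=
  ∀ (p : ℕ) [Fact p.Prime], p ≠ 2 → ∀ (S : Finset Nat.Primes), pPrime p ∈ S →
  ∀ (Δ : Type) [Group Δ] [Finite Δ] (π : GQ →* Δ) (χ : Δ →* (ZMod p)ˣ), s56eg_IsLev p S π χ →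
  ∀ (B : Subgroup Δ), IsCyclic B → (Nat.card B).Coprime p → ∀ (M : Type) [AddCommGroup M]
    [Module (ZMod p) M] [Module.Finite (ZMod p) M] (ρ : Representation (ZMod p) Δ M),
    s56eg_f S π _ (Representation.coind B.subtype (s56ei_res ρ B)) ≤ 0

/-- The formal theorem applied to the concrete `f`: `f = 0`. -/
theorem s56eg_f_eq_zero (hA : s56eg_A_stmt) (hB : s56eg_B_stmt) (hBp : s56eg_Bplus_stmt)
    (hC : s56eg_C_stmt) (p : ℕ) [Fact p.Prime] (hp2 : p ≠ 2) (S : Finset Nat.Primes)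
    (hpS : pPrime p ∈ S) (Δ : Type) [Group Δ] [Finite Δ] (π : GQ →* Δ) (χ : Δ →* (ZMod p)ˣ)
    (hπ : s56eg_IsLev p S π χ) (M : Type) [AddCommGroup M] [Module (ZMod p) M]
    [Module.Finite (ZMod p) M] (ρ : Representation (ZMod p) Δ M) : s56eg_f S π M ρ = 0 :=
  s56ef_main (χ := χ)
    { f := fun M _ _ ρ => s56eg_f S π M ρ
      zero := (hA p hp2 S hpS Δ π χ hπ).1
      super := (hA p hp2 S hpS Δ π χ hπ).2
      dual_bound := hB p hp2 S hpS Δ π χ hπ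
      triv_bound := hBp p hp2 S hpS Δ π χ hπ
      base := hC p hp2 S hpS Δ π χ hπ } M ρ

/-- **Input (Fin)**: finiteness of `H¹(G_S, M)` and `H²(G_S, M)` (from S55: `Ш¹`, `Ш²` finite,
and the local finiteness in `s56gw_LEC_stmt`). -/
def s56eg_Fin_stmt : Prop :=
  ∀ (p : ℕ) [Fact p.Prime], p ≠ 2 → ∀ (S : Finset Nat.Primes), pPrime p ∈ S →
  ∀ (M : Rep.{0} (ZMod p) GQ) [FiniteDimensional (ZMod p) M],
    s56gw_Smooth M → s56gw_UnrOut S M →
    FiniteDimensional (ZMod p) (continuousH1S S M) ∧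
    FiniteDimensional (ZMod p) (continuousH2S S M)

/-- **Input (Lev)**: every finite smooth `M` unramified outside `S` is inflated from a level. -/
def s56eg_Lev_stmt : Prop :=
  ∀ (p : ℕ) [Fact p.Prime], p ≠ 2 → ∀ (S : Finset Nat.Primes), pPrime p ∈ S →
  ∀ (M : Rep.{0} (ZMod p) GQ) [FiniteDimensional (ZMod p) M],
    s56gw_Smooth M → s56gw_UnrOut S M →
    ∃ (Δ : Type) (_ : Group Δ) (_ : Finite Δ) (π : GQ →* Δ) (χ : Δ →* (ZMod p)ˣ)
      (ρ : Representation (ZMod p) Δ M), s56eg_IsLev p S π χ ∧ ρ.comp π = M.ρ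

/-- **[GW-GEC] from the inputs.** -/
theorem s56eg_GEC (hLev : s56eg_Lev_stmt) (hFin : s56eg_Fin_stmt) (hA : s56eg_A_stmt)
    (hB : s56eg_B_stmt) (hBp : s56eg_Bplus_stmt) (hC : s56eg_C_stmt) : s56gw_GEC_stmt := by
  intro p _ hp2 S hpS M _ hsm hur
  obtain ⟨Δ, _, _, π, χ, ρ, hπ, hρ⟩ := hLev p hp2 S hpS M hsm hur
  obtain ⟨h1, h2⟩ := hFin p hp2 S hpS M hsm hur
  refine ⟨h1, h2, ?_⟩
  have h0 := s56eg_f_eq_zero hA hB hBp hC p hp2 S hpS Δ π χ hπ M ρ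
  have hM : s56eg_infl π ρ = M := by
    unfold s56eg_infl
    rw [hρ]
  have hF := congrArg (fun N : Rep.{0} (ZMod p) GQ =>
    (finrank (ZMod p) (continuousH1S S N) : ℤ)
    - (finrank (ZMod p) N.ρ.invariants : ℤ)
    - (finrank (ZMod p) (continuousH2S S N) : ℤ)
    + (finrank (ZMod p) (s56gw_resInf N).ρ.invariants : ℤ)) hM
  beta_reduce at hF
  unfold s56eg_f at h0
  omega

end Fermat.Agent.S56
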