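import Fermat.Agent.S56.GW.EC.GTop
import Fermat.Agent.S56.GW.EC.GA.Main
import Fermat.Agent.S56.GW.EC.GB.Stmt
import Fermat.Agent.S56.GW.Dual.D5.Closed

/-!
# S56, [GW-EC]: the global Euler characteristic from its four remaining inputs (prefix `s56eg_`)

`s56eg_GEC_of` : the seam `s56gw_GEC_stmt` from

* `s56gw_LEC_stmt` (the local Euler characteristic; it gives (Fin) and (A)),
* `s56egb_L2_stmt` (`h²_q(M') ≤ h⁰_q(M)`; with `s56gdg_dual` and LEC it gives (B)),
* `s56eg_Bplus_stmt` (B⁺) and `s56eg_C_stmt` (the base case (C)).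

Everything else ((Lev), the formal `s`-trick, (A), (Fin), (B), [GW-DUAL]) is plugged in.
-/

set_option autoImplicit false

namespace Fermat.Agent.S56

/-- **The global Euler characteristic seam from LEC, (L2), (B⁺) and (C).** -/
theorem s56eg_GEC_of (hLEC : s56gw_LEC_stmt) (hL2 : s56egb_L2_stmt)
    (hBp : s56eg_Bplus_stmt) (hC : s56eg_C_stmt) : s56gw_GEC_stmt :=
  s56eg_GEC' (s56ega_fin_main hLEC) (s56ega_main hLEC)
    (s56egb_B_main s56gdg_dual hLEC hL2) hBp hC

end Fermat.Agent.S56
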