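import Mathlib
import Fermat.Agent.S56.GW.EC.GDef
import Fermat.Agent.S56.GW.Dual.Base

/-!
# S56, node [GW-EC]: every finite smooth module is inflated from a level (prefix `s56eg_`)

`s56eg_lev : s56eg_Lev_stmt`: for `M` finite, smooth, unramified outside `S ∋ p`, the Galois group
`Δ = Gal(K0/ℚ)` of helper6's base field `K0 = s56gd_K0 M` (kernel field of `M` composed with
`ℚ(μ_p)`) with `π = restrictNormalHom K0` is a level in the sense of `s56eg_IsLev`, and `M.ρ`
factors through `π`.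
-/

set_option autoImplicit false

open CategoryTheory Module groupCohomology ExtCitation Fermat.Agent.S55

namespace Fermat.Agent.S56

local notation "Qbar" => AlgebraicClosure ℚ
local notation "GQ" => (AlgebraicClosure ℚ ≃ₐ[ℚ] AlgebraicClosure ℚ)

/-- The kernel of the projection to `Gal(L/ℚ)` is the fixing subgroup. -/
theorem s56eg_q_eq_one_iff (a : s56gd_Fld) (σ : GQ) :
    a.q σ = 1 ↔ σ ∈ a.L.fixingSubgroup := by
  rw [← tl_ker_restrictNormalHom a.L, MonoidHom.mem_ker]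
  rfl

/-- Lifting a monoid hom along a surjective group hom. -/
theorem s56eg_exists_lift {G H N : Type*} [Group G] [Group H] [Monoid N] (π : G →* H)
    (hπ : Function.Surjective π) (φ : G →* N) (h : ∀ g, π g = 1 → φ g = 1) :
    ∃ ψ : H →* N, ∀ g, ψ (π g) = φ g := by
  have hk : π.ker ≤ φ.toHomUnits.ker := by
    intro g hg
    rw [MonoidHom.mem_ker] at hg ⊢
    apply Units.ext
    rw [MonoidHom.coe_toHomUnits]
    exact h g hg
  refine ⟨(Units.coeHom N).comp (MonoidHom.liftOfSurjective π hπ ⟨φ.toHomUnits, hk⟩), ?_⟩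
  intro g
  have := MonoidHom.liftOfRightInverse_comp_apply π _ (Function.rightInverse_surjInv hπ)
    ⟨φ.toHomUnits, hk⟩ g
  rw [MonoidHom.comp_apply]
  show ((MonoidHom.liftOfSurjective π hπ ⟨φ.toHomUnits, hk⟩ (π g) : Nˣ) : N) = φ g
  unfold MonoidHom.liftOfSurjective
  rw [this]
  rfl

theorem s56eg_lev : s56eg_Lev_stmt := by
  intro p _ hp2 S hpS M _ hsm hur
  have hsurj : Function.Surjective (s56gd_K0 M hsm).q :=
    tl_restrictNormalHom_surjective (s56gd_K0 M hsm).L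
  obtain ⟨ρ, hρ⟩ := s56eg_exists_lift (s56gd_K0 M hsm).q hsurj M.ρ (fun σ hσ =>
    s56gd_K0_rho M hsm ((s56eg_q_eq_one_iff _ σ).1 hσ))
  obtain ⟨χ, hχ⟩ := s56eg_exists_lift (s56gd_K0 M hsm).q hsurj (cycloChar p) (fun σ hσ =>
    s56gd_K0_chi M hsm ((s56eg_q_eq_one_iff _ σ).1 hσ))
  refine ⟨(s56gd_K0 M hsm).Γ, inferInstance, inferInstance, (s56gd_K0 M hsm).q, χ, ρ,
    ⟨hsurj, ⟨(s56gd_K0 M hsm).L, (s56gd_K0 M hsm).fin, fun s hs =>
      (s56eg_q_eq_one_iff _ s).2 hs⟩, ?_, hχ⟩, ?_⟩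
  · intro q hq A hA g hg
    exact (s56eg_q_eq_one_iff _ g).2 ((s56gd_K0_unr M hsm S hpS hur).2 q hq A hA hg)
  · exact MonoidHom.ext hρ

/-- **[GW-GEC] from the four arithmetic inputs and finiteness.** -/
theorem s56eg_GEC' (hFin : s56eg_Fin_stmt) (hA : s56eg_A_stmt) (hB : s56eg_B_stmt)
    (hBp : s56eg_Bplus_stmt) (hC : s56eg_C_stmt) : s56gw_GEC_stmt :=
  s56eg_GEC s56eg_lev hFin hA hB hBp hC

end Fermat.Agent.S56
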