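import Fermat.Agent.S56.GW.EC.GWire
import Fermat.Agent.S56.GW.EC.L2.Closed
import Fermat.Agent.S56.GW.LEC.H2.Closed

/-!
# S56 / [GW-EC]: the global Euler characteristic seam from its two remaining inputs

`s56eg_GEC_of2 : s56eg_Bplus_stmt → s56eg_C_stmt → s56gw_GEC_stmt`: the local Euler
characteristic (`s56lh_LEC_closed`) and `(L2≤)` (`s56el2_closed`) are plugged into
`s56eg_GEC_of`.
-/

set_option autoImplicit false

namespace Fermat.Agent.S56

/-- **[GW-EC]** from `(B⁺)` and `(C)` only. -/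
theorem s56eg_GEC_of2 (hBp : s56eg_Bplus_stmt) (hC : s56eg_C_stmt) : s56gw_GEC_stmt :=
  s56eg_GEC_of s56lh_LEC_closed s56el2_closed hBp hC

end Fermat.Agent.S56
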